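/-
MW / DIV (S17), facts (A) and (D) of the divisibility design (helper77).  Mathlib only.

Automorphisms of algebraically closed fields:

* `exists_algEquiv_of_isTranscendenceBasis` (T) : two algebraically closed `R`-fields with
  transcendence bases `v`, `w` and a bijection `e` of the index sets are isomorphic over `R` by an
  isomorphism carrying `v i` to `w (e i)`;
* `exists_algEquiv_apply_eq_add` (A0) : for `x` transcendental over `M` and `c : M` there is an
  `M`-automorphism of the algebraically closed field `C` with `x ↦ x + c`;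
* `mem_range_of_finite_orbit` (A), `mem_of_finite_orbit` (A') : an element of `C` with finite orbit
  under `Aut(C/M)`, `M` algebraically closed, lies in `M`;
* `exists_algEquiv_comp_eq` (D) : any two `K`-embeddings of a countable field into an uncountable
  algebraically closed field are conjugate under `Aut(C/K)`.
-/
import Mathlib

set_option autoImplicit false

namespace Fermat.Agent.MW.Div.AutField

open Cardinal

/-! ### (T) transport of transcendence bases -/

/-- (T) Two algebraically closed fields with transcendence bases indexed by equipotent types are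
isomorphic over the base, by an isomorphism matching the bases. -/
theorem exists_algEquiv_of_isTranscendenceBasis {R K L : Type*} [CommRing R] [Field K] [Field L]
    [Algebra R K] [Algebra R L] [IsAlgClosed K] [IsAlgClosed L] {ι κ : Type*} {v : ι → K}
    {w : κ → L} (e : ι ≃ κ) (hv : IsTranscendenceBasis R v) (hw : IsTranscendenceBasis R w) :
    ∃ σ : K ≃ₐ[R] L, ∀ i, σ (v i) = w (e i) := by
  have := IsAlgClosed.isAlgClosure_of_transcendence_basis v hv
  have := IsAlgClosed.isAlgClosure_of_transcendence_basis w hw
  let e' : Algebra.adjoin R (Set.range v) ≃ₐ[R] Algebra.adjoin R (Set.range w) :=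
    hv.1.aevalEquiv.symm.trans ((MvPolynomial.renameEquiv R e).trans hw.1.aevalEquiv)
  let σ₀ : K ≃+* L := IsAlgClosure.equivOfEquiv K L e'.toRingEquiv
  have hσ₀ : ∀ s : Algebra.adjoin R (Set.range v),
      σ₀ (algebraMap _ K s) = algebraMap _ L (e' s) :=
    fun s => IsAlgClosure.equivOfEquiv_algebraMap K L e'.toRingEquiv s
  refine ⟨AlgEquiv.ofRingEquiv (f := σ₀) (fun r => ?_), fun i => ?_⟩
  · have h1 : algebraMap R K r =
        algebraMap (Algebra.adjoin R (Set.range v)) K (algebraMap R _ r) := rfl
    rw [h1, hσ₀, e'.commutes]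
    rfl
  · have h1 : v i =
        algebraMap (Algebra.adjoin R (Set.range v)) K (hv.1.aevalEquiv (MvPolynomial.X i)) := by
      rw [AlgebraicIndependent.algebraMap_aevalEquiv, MvPolynomial.aeval_X]
    have h2 : e' (hv.1.aevalEquiv (MvPolynomial.X i)) =
        hw.1.aevalEquiv (MvPolynomial.X (e i)) := by
      simp [e']
    show σ₀ (v i) = w (e i)
    rw [h1, hσ₀, h2, AlgebraicIndependent.algebraMap_aevalEquiv, MvPolynomial.aeval_X]

/-! ### Shifting a transcendence basis by constants -/

theorem isTranscendenceBasis_add_algebraMap {R A : Type*} [CommRing R] [Nontrivial R]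
    [CommRing A] [Algebra R A] {ι : Type*} {v : ι → A} (hv : IsTranscendenceBasis R v)
    (a : ι → R) : IsTranscendenceBasis R (fun i => v i + algebraMap R A (a i)) := by
  have hind : AlgebraicIndependent R (fun i => v i + algebraMap R A (a i)) := by
    rw [algebraicIndependent_iff_injective_aeval]
    let φ : MvPolynomial ι R →ₐ[R] MvPolynomial ι R :=
      MvPolynomial.aeval (fun i => MvPolynomial.X i + MvPolynomial.C (a i))
    let ψ : MvPolynomial ι R →ₐ[R] MvPolynomial ι R :=
      MvPolynomial.aeval (fun i => MvPolynomial.X i - MvPolynomial.C (a i))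
    have hψφ : ψ.comp φ = AlgHom.id R _ := by
      apply MvPolynomial.algHom_ext
      intro i
      simp [φ, ψ]
    have hφinj : Function.Injective φ := fun p q h => by
      have h' := congrArg ψ h
      rw [← AlgHom.comp_apply, ← AlgHom.comp_apply, hψφ] at h'
      exact h'
    have hcomp : MvPolynomial.aeval (fun i => v i + algebraMap R A (a i)) =
        (MvPolynomial.aeval v).comp φ := by
      apply MvPolynomial.algHom_ext
      intro i
      simp [φ]
    rw [hcomp]
    exact (algebraicIndependent_iff_injective_aeval.1 hv.1).comp hφinj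
  rw [hind.isTranscendenceBasis_iff_isAlgebraic]
  have hadj : Algebra.adjoin R (Set.range fun i => v i + algebraMap R A (a i)) =
      Algebra.adjoin R (Set.range v) := by
    apply le_antisymm
    · apply Algebra.adjoin_le
      rintro _ ⟨i, rfl⟩
      exact add_mem (Algebra.subset_adjoin ⟨i, rfl⟩) (Subalgebra.algebraMap_mem _ _)
    · apply Algebra.adjoin_le
      rintro _ ⟨i, rfl⟩
      have h : v i = (v i + algebraMap R A (a i)) - algebraMap R A (a i) := by ring
      rw [h]
      exact sub_mem (Algebra.subset_adjoin ⟨i, rfl⟩) (Subalgebra.algebraMap_mem _ _)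
  rw [hadj]
  exact hv.isAlgebraic

/-! ### (A) finite orbits -/

/-- (A0) A transcendental element can be translated by any constant by an automorphism. -/
theorem exists_algEquiv_apply_eq_add {M C : Type*} [Field M] [Field C] [Algebra M C]
    [IsAlgClosed C] (x : C) (hx : Transcendental M x) (c : M) :
    ∃ σ : C ≃ₐ[M] C, σ x = x + algebraMap M C c := by
  classical
  have hs : AlgebraicIndepOn M id ({x} : Set C) := by
    have : AlgebraicIndependent M (fun i : ({x} : Set C) => id (i : C)) :=
      (algebraicIndependent_singleton_iff (⟨x, rfl⟩ : ({x} : Set C))).mpr hx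
    exact this
  obtain ⟨t, hxt, ht⟩ := exists_isTranscendenceBasis_superset hs
  have hxmem : x ∈ t := hxt rfl
  let a : t → M := fun y => if (y : C) = x then c else 0
  have hw := isTranscendenceBasis_add_algebraMap ht a
  obtain ⟨σ, hσ⟩ := exists_algEquiv_of_isTranscendenceBasis (Equiv.refl t) ht hw
  refine ⟨σ, ?_⟩
  have h := hσ ⟨x, hxmem⟩
  simpa [a] using h

/-- (A) An element with finite orbit under the automorphisms of an algebraically closed field `C`
over an algebraically closed subfield `M` lies in `M`. -/
theorem mem_range_of_finite_orbit {M C : Type*} [Field M] [Field C] [Algebra M C]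
    [IsAlgClosed M] [IsAlgClosed C] (x : C)
    (h : (Set.range fun σ : C ≃ₐ[M] C => σ x).Finite) : x ∈ (algebraMap M C).range := by
  by_contra hx
  have htr : Transcendental M x := by
    intro halg
    apply hx
    have hint : IsIntegral M x := halg.isIntegral
    exact minpoly.mem_range_of_degree_eq_one M x
      (IsAlgClosed.degree_eq_one_of_irreducible M (minpoly.irreducible hint))
  have hinj : Function.Injective (fun c : M => x + algebraMap M C c) := fun c c' hcc =>
    (algebraMap M C).injective (add_left_cancel hcc)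
  have hmem : ∀ c : M, x + algebraMap M C c ∈ Set.range fun σ : C ≃ₐ[M] C => σ x := fun c => by
    obtain ⟨σ, hσ⟩ := exists_algEquiv_apply_eq_add x htr c
    exact ⟨σ, hσ⟩
  exact Set.infinite_of_injective_forall_mem hinj hmem h

/-- (A') The same for an algebraically closed intermediate field. -/
theorem mem_of_finite_orbit {K C : Type*} [Field K] [Field C] [Algebra K C] [IsAlgClosed C]
    (M : IntermediateField K C) [IsAlgClosed M] (x : C)
    (h : {y | ∃ σ : C ≃ₐ[K] C, (∀ m ∈ M, σ m = m) ∧ σ x = y}.Finite) : x ∈ M := by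
  have h' : (Set.range fun τ : C ≃ₐ[M] C => τ x).Finite := by
    refine h.subset ?_
    rintro _ ⟨τ, rfl⟩
    exact ⟨τ.restrictScalars K, fun m hm => τ.commutes ⟨m, hm⟩, rfl⟩
  obtain ⟨m, hm⟩ := mem_range_of_finite_orbit x h'
  rw [← hm]
  exact m.2

/-! ### (D) conjugacy of embeddings -/

/-- (D) Any two `K`-embeddings of a countable field into an uncountable algebraically closed
field are conjugate under `Aut(C/K)`. -/
theorem exists_algEquiv_comp_eq {K L C : Type*} [Field K] [Field L] [Field C] [Algebra K L]
    [Algebra K C] [IsAlgClosed C] (hL : #L ≤ ℵ₀) (hC : ℵ₀ < #C) (φ φ' : L →ₐ[K] C) :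
    ∃ σ : C ≃ₐ[K] C, ∀ y, σ (φ y) = φ' y := by
  let a1 : Algebra L C := φ.toRingHom.toAlgebra
  let a2 : Algebra L C := φ'.toRingHom.toAlgebra
  have f1 : @FaithfulSMul L C a1.toSMul :=
    (@faithfulSMul_iff_algebraMap_injective L C _ _ a1).mpr φ.toRingHom.injective
  have f2 : @FaithfulSMul L C a2.toSMul :=
    (@faithfulSMul_iff_algebraMap_injective L C _ _ a2).mpr φ'.toRingHom.injective
  obtain ⟨ι, v, hv⟩ := @exists_isTranscendenceBasis' L C _ _ a1 f1
  obtain ⟨κ, w, hw⟩ := @exists_isTranscendenceBasis' L C _ _ a2 f2
  have c1 := @IsAlgClosed.cardinal_eq_cardinal_transcendence_basis_of_aleph0_lt L C _ _ a1 _ ι v _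
    hv hL hC
  have c2 := @IsAlgClosed.cardinal_eq_cardinal_transcendence_basis_of_aleph0_lt L C _ _ a2 _ κ w _
    hw hL hC
  rw [Cardinal.lift_id, Cardinal.lift_id] at c1 c2
  obtain ⟨e⟩ := Cardinal.eq.1 (c1.symm.trans c2)
  obtain ⟨σ, -⟩ := @exists_algEquiv_of_isTranscendenceBasis L C C _ _ _ a1 a2 _ _ ι κ v w e hv hw
  have hσ : ∀ y, σ (φ y) = φ' y := fun y => @AlgEquiv.commutes L C C _ _ _ a1 a2 σ y
  refine ⟨AlgEquiv.ofRingEquiv (f := (@AlgEquiv.toRingEquiv L C C _ _ _ a1 a2 σ)) (fun k => ?_),
    hσ⟩
  have h1 : algebraMap K C k = φ (algebraMap K L k) := (φ.commutes k).symm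
  have h2 : algebraMap K C k = φ' (algebraMap K L k) := (φ'.commutes k).symm
  show σ (algebraMap K C k) = algebraMap K C k
  rw [h1, hσ, ← h2, h1]

end Fermat.Agent.MW.Div.AutField
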