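/-
MW / DIV (S17): the abstract skeleton of the "generic tuples" divisibility argument (helper77).
Mathlib only.

A group `G` (automorphisms of the big constant field) acts on an abelian group `P` (degree-zero
classes over the big field).  `B ≤ P` is a subgroup (classes coming from the small constant field).
`T ⊆ P` is the set of classes of generic tuples.

* `subset_nsmul_of_orbit` : if `T` is contained in one orbit and `n • c ∈ T` for one `c ∈ T`, then
  every element of `T` is divisible by `n`;
* `exists_nsmul_eq_of_orbit` : if moreover `c + b ∈ T` for `b ∈ B`, then every element of `B` is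
  divisible by `n` in `P`;
* `finite_orbit_of_nsmul_fixed` : an `n`-th root of a `G`-fixed element has finite orbit when the
  `n`-torsion is finite;
* `divisible_of_generic` : the assembly — `B` is `n`-divisible, given the descent property
  "finite orbit ⟹ in `B`";
* group forms of "finite orbit": `finite_orbit_of_finiteIndex`, `finiteIndex_stabilizer_of_finite`.
-/
import Mathlib

set_option autoImplicit false

namespace Fermat.Agent.MW.Div.GenericAbs

variable {G P : Type*} [Group G] [AddCommGroup P] [DistribMulAction G P]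

/-- If all elements of `T` are conjugate to `c` and `n • c ∈ T`, then `T ⊆ n • P`. -/
theorem subset_nsmul_of_orbit (n : ℕ) (T : Set P) {c : P} (hT : ∀ t ∈ T, ∃ σ : G, σ • c = t)
    (hn : n • c ∈ T) : ∀ t ∈ T, ∃ z : P, n • z = t := by
  obtain ⟨σ, hσ⟩ := hT _ hn
  have hc : n • (σ⁻¹ • c) = c := by
    rw [← smul_comm σ⁻¹ n c, ← hσ, inv_smul_smul]
  intro t ht
  obtain ⟨τ, rfl⟩ := hT t ht
  exact ⟨τ • σ⁻¹ • c, by rw [← smul_comm τ n (σ⁻¹ • c), hc]⟩

/-- If moreover `T` is stable under translation by `B`, then `B ⊆ n • P`. -/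
theorem exists_nsmul_eq_of_orbit (n : ℕ) (T : Set P) (B : AddSubgroup P) {c : P} (hc : c ∈ T)
    (hT : ∀ t ∈ T, ∃ σ : G, σ • c = t) (hn : n • c ∈ T) (hadd : ∀ b ∈ B, c + b ∈ T) :
    ∀ b ∈ B, ∃ z : P, n • z = b := by
  have h := subset_nsmul_of_orbit n T hT hn
  intro b hb
  obtain ⟨z₁, hz₁⟩ := h c hc
  obtain ⟨z₂, hz₂⟩ := h (c + b) (hadd b hb)
  exact ⟨z₂ - z₁, by rw [nsmul_sub, hz₁, hz₂, add_sub_cancel_left]⟩

/-- An `n`-th root of a fixed element has finite orbit when the `n`-torsion of `P` is finite. -/
theorem finite_orbit_of_nsmul_fixed (n : ℕ) (htor : {x : P | n • x = 0}.Finite) (z : P)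
    (hfix : ∀ σ : G, σ • (n • z) = n • z) : (Set.range fun σ : G => σ • z).Finite := by
  have hsub : (Set.range fun σ : G => σ • z) ⊆ (fun x : P => x + z) '' {x : P | n • x = 0} := by
    rintro _ ⟨σ, rfl⟩
    refine ⟨σ • z - z, ?_, by simp⟩
    show n • (σ • z - z) = 0
    rw [nsmul_sub, ← smul_comm σ n z, hfix, sub_self]
  exact (htor.image _).subset hsub

/-- **The abstract divisibility statement.**  `B` is pointwise fixed, `T ∋ c` lies in the orbit of
`c`, is stable under `n` at `c` and under translation by `B` at `c`, the `n`-torsion of `P` is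
finite, and elements of `P` with finite orbit lie in `B`.  Then `B` is `n`-divisible. -/
theorem divisible_of_generic (n : ℕ) (T : Set P) (B : AddSubgroup P) {c : P} (hc : c ∈ T)
    (hT : ∀ t ∈ T, ∃ σ : G, σ • c = t) (hn : n • c ∈ T) (hadd : ∀ b ∈ B, c + b ∈ T)
    (hBfix : ∀ b ∈ B, ∀ σ : G, σ • b = b) (htor : {x : P | n • x = 0}.Finite)
    (hdesc : ∀ z : P, (Set.range fun σ : G => σ • z).Finite → z ∈ B) :
    ∀ b ∈ B, ∃ z ∈ B, n • z = b := by
  intro b hb
  obtain ⟨z, hz⟩ := exists_nsmul_eq_of_orbit n T B hc hT hn hadd b hb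
  refine ⟨z, hdesc z (finite_orbit_of_nsmul_fixed n htor z fun σ => ?_), hz⟩
  rw [hz]
  exact hBfix b hb σ

/-! ### Group forms of "finite orbit" -/

section Orbit

variable {X : Type*} [MulAction G X]

/-- An element fixed by a subgroup of finite index has finite orbit. -/
theorem finite_orbit_of_finiteIndex (H : Subgroup G) [H.FiniteIndex] (x : X)
    (hx : ∀ σ ∈ H, σ • x = x) : (Set.range fun σ : G => σ • x).Finite := by
  have hfin : Finite (G ⧸ H) := H.finite_quotient_of_finiteIndex
  let f : G ⧸ H → X := Quotient.lift (fun σ : G => σ • x) (by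
    intro a b hab
    have h : a⁻¹ * b ∈ H := QuotientGroup.leftRel_apply.mp hab
    have h2 := hx _ h
    show a • x = b • x
    rw [← h2, ← mul_smul, mul_inv_cancel_left, h2])
  have hsub : (Set.range fun σ : G => σ • x) ⊆ Set.range f := by
    rintro _ ⟨σ, rfl⟩
    exact ⟨QuotientGroup.mk σ, rfl⟩
  exact (Set.finite_range f).subset hsub

/-- The stabiliser of an element with finite orbit has finite index. -/
theorem finiteIndex_stabilizer_of_finite (x : X) (h : (Set.range fun σ : G => σ • x).Finite) :
    (MulAction.stabilizer G x).FiniteIndex := by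
  have h' : (MulAction.orbit G x).Finite := h
  have : Finite (MulAction.orbit G x) := h'.to_subtype
  have e := MulAction.orbitEquivQuotientStabilizer G x
  have : Finite (G ⧸ MulAction.stabilizer G x) := Finite.of_equiv _ e
  exact Subgroup.finiteIndex_of_finite_quotient

/-- The elements fixing every point of a finite stable set form a subgroup of finite index. -/
theorem finiteIndex_fixing_of_finite (S : Set X) (hS : S.Finite)
    (hstab : ∀ σ : G, ∀ x ∈ S, σ • x ∈ S) :
    ∃ H : Subgroup G, H.FiniteIndex ∧ ∀ σ ∈ H, ∀ x ∈ S, σ • x = x := by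
  classical
  have hfin : ∀ x ∈ S, (MulAction.stabilizer G x).FiniteIndex := fun x hx =>
    finiteIndex_stabilizer_of_finite x (hS.subset (by rintro _ ⟨σ, rfl⟩; exact hstab σ x hx))
  refine ⟨⨅ x ∈ hS.toFinset, MulAction.stabilizer G x, ?_, fun σ hσ x hx => ?_⟩
  · apply Subgroup.finiteIndex_iInf'
    intro x hx
    exact hfin x ((Set.Finite.mem_toFinset hS).mp hx)
  · have h1 : σ ∈ MulAction.stabilizer G x :=
      Subgroup.mem_iInf.mp (Subgroup.mem_iInf.mp hσ x) ((Set.Finite.mem_toFinset hS).mpr hx)
    exact h1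

end Orbit

end Fermat.Agent.MW.Div.GenericAbs
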