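/-
MW / DIV (S17): group forms of fact (A) (helper77).

* `mem_range_of_finiteIndex` : an element of an algebraically closed field `C` fixed by a
  finite-index subgroup of `Aut(C/M)`, `M` algebraically closed, lies in `M`;
* `mem_of_finiteIndex_fixing` : the same for an algebraically closed intermediate field `M` of
  `C/K` and a subgroup `H` of `Aut(C/K)` whose intersection with `Aut(C/M)` has finite index in
  `Aut(C/M)`;
* `forall_mem_range_of_finite_stable` : a finite `Aut(C/M)`-stable set of elements lies in `M`.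
-/
import Mathlib
import Fermat.Agent.MW.Div.AutField
import Fermat.Agent.MW.Div.GenericAbs

set_option autoImplicit false

namespace Fermat.Agent.MW.Div.AutGroup

open Fermat.Agent.MW.Div

/-- An element fixed by a finite-index subgroup of `Aut(C/M)` lies in `M`. -/
theorem mem_range_of_finiteIndex {M C : Type*} [Field M] [Field C] [Algebra M C] [IsAlgClosed M]
    [IsAlgClosed C] (H : Subgroup (C ≃ₐ[M] C)) [H.FiniteIndex] (x : C)
    (hx : ∀ σ ∈ H, σ x = x) : x ∈ (algebraMap M C).range :=
  AutField.mem_range_of_finite_orbit x (GenericAbs.finite_orbit_of_finiteIndex H x hx)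

/-- A finite set of elements stable under `Aut(C/M)` lies in `M`. -/
theorem forall_mem_range_of_finite_stable {M C : Type*} [Field M] [Field C] [Algebra M C]
    [IsAlgClosed M] [IsAlgClosed C] (S : Set C) (hS : S.Finite)
    (hstab : ∀ σ : C ≃ₐ[M] C, ∀ x ∈ S, σ x ∈ S) : ∀ x ∈ S, x ∈ (algebraMap M C).range := by
  intro x hx
  refine AutField.mem_range_of_finite_orbit x (hS.subset ?_)
  rintro _ ⟨σ, rfl⟩
  exact hstab σ x hx

/-- The intermediate-field form: `H ≤ Aut(C/K)` such that `H ∩ Aut(C/M)` has finite index in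
`Aut(C/M)`; an element fixed by `H ∩ Aut(C/M)` lies in `M`. -/
theorem mem_of_finiteIndex_fixing {K C : Type*} [Field K] [Field C] [Algebra K C] [IsAlgClosed C]
    (M : IntermediateField K C) [IsAlgClosed M] (H : Subgroup (C ≃ₐ[M] C)) [H.FiniteIndex]
    (x : C) (hx : ∀ σ ∈ H, σ x = x) : x ∈ M := by
  obtain ⟨m, hm⟩ := mem_range_of_finiteIndex H x hx
  rw [← hm]
  exact m.2

end Fermat.Agent.MW.Div.AutGroup
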