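import Mathlib
import Fermat.Agent.ESJ.Dict.Main
import Fermat.Agent.ESJ.Dict.Bc
import Fermat.Agent.ESJ.Jac.FinDimK
import Fermat.Agent.S24.PlaceDictCore
import Fermat.Agent.S24.PlaceBasic

/-!
# MW / DIV: base change of places and divisors `ℚ̄ → ℂ`

Every place `v` of `F = ℚ̄(j(q^d))` has an extension `bcPlace N v` to `F_ℂ = ℂ(j(q^d))` with
`ord_{bcPlace v} (bc f) = ord_v f` (index one).  Proof through the analytic dictionaries over `ℚ̄`
and `ℂ` (`ESJ.Dict.isDict_Qbar`, `isDict_C`): the raw point / cusp valuation at the same point of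
`ℍ` / the same cusp is a raw valuation of `F_ℂ`, restricts to `e * ord_v`, and `e` divides all its
values; hence its place has multiplier exactly `e`.

`bcDiv N : Divisor ℚ̄ F →+ Divisor ℂ F_ℂ` is the induced map on divisors.
-/

set_option autoImplicit false

noncomputable section

namespace Fermat.Agent.MW.Div

open AlgebraicCurve ModularCurve UpperHalfPlane CongruenceSubgroup
open Fermat.Agent.S24 Fermat.Agent.ESJ.Jac Fermat.Agent.ESJ.Dict
open scoped MatrixGroups

/-- Every place has a uniformizer. -/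
theorem exists_ord_eq_one_place {K F : Type*} [Field K] [Field F] [Algebra K F] (v : Place K F) :
    ∃ f : F, f ≠ 0 ∧ v.ord f = 1 := by
  obtain ⟨π, hπ⟩ := IsDiscreteValuationRing.exists_irreducible v.toValuationSubring
  refine ⟨(π : F), ?_, v.ord_coe_irreducible hπ⟩
  intro h
  exact hπ.ne_zero (Subtype.ext h)

/-- **Transfer of a place along a field embedding through a raw valuation.**  If the raw valuation
`w'` of `F'` restricts along `φ` to `e * ord_v`, and `e` divides all values of `w'`, then the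
place of `w'` restricts to `v` with index one. -/
theorem exists_place_of_rawVal {K K' F F' : Type*} [Field K] [Field K'] [Field F] [Field F']
    [Algebra K F] [Algebra K' F'] (φ : F →+* F') (v : Place K F) {w' : F' → ℤ}
    (hw' : Counting.IsRawVal K' w') (e : ℕ) (he : 0 < e)
    (h1 : ∀ f : F, f ≠ 0 → w' (φ f) = e * v.ord f)
    (h2 : ∀ g : F', g ≠ 0 → (e : ℤ) ∣ w' g) :
    ∃ w : Place K' F', ∀ f : F, w.ord (φ f) = v.ord f := by
  obtain ⟨π, hπ0, hπ1⟩ := exists_ord_eq_one_place v
  have hφπ0 : φ π ≠ 0 := (map_ne_zero φ).mpr hπ0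
  have he' : (0 : ℤ) < (e : ℤ) := by exact_mod_cast he
  have hπe : w' (φ π) = e := by rw [h1 π hπ0, hπ1, mul_one]
  have hnt : ∃ g : F', g ≠ 0 ∧ w' g ≠ 0 := ⟨φ π, hφπ0, by rw [hπe]; exact he'.ne'⟩
  set w : Place K' F' := hw'.place hnt with hw
  set m : ℕ := PlaceDict.mult hw' hnt with hm
  have hmpos : (0 : ℤ) < (m : ℤ) := by exact_mod_cast PlaceDict.mult_pos hw' hnt
  have hmul : ∀ g : F', g ≠ 0 → w' g = m * w.ord g := fun g hg =>
    PlaceDict.eq_mult_mul_ord hw' hnt hg
  -- `m ∣ e`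
  have hme : (m : ℤ) ∣ (e : ℤ) := ⟨w.ord (φ π), by rw [← hmul _ hφπ0, hπe]⟩
  -- `e ∣ m`
  obtain ⟨ϖ, hϖ0, -, hϖm⟩ := PlaceDict.exists_uniformizer hw' hnt
  have hem : (e : ℤ) ∣ (m : ℤ) := by
    have := h2 ϖ hϖ0
    rwa [hϖm] at this
  have hmeq : (m : ℤ) = (e : ℤ) := Int.dvd_antisymm hmpos.le he'.le hme hem
  refine ⟨w, fun f => ?_⟩
  rcases eq_or_ne f 0 with rfl | hf
  · simp
  have hφf0 : φ f ≠ 0 := (map_ne_zero φ).mpr hf
  have h3 : (e : ℤ) * w.ord (φ f) = (e : ℤ) * v.ord f := by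
    rw [← h1 f hf, hmul _ hφf0, hmeq]
  exact mul_left_cancel₀ he'.ne' h3

variable (N : ℕ) [NeZero N]

/-- **Extension of places** `ℚ̄ → ℂ` with index one. -/
theorem exists_bcPlace (v : Place KQ (FNK KQ N)) :
    ∃ w : Place ℂ (FNK ℂ N), ∀ f : FNK KQ N, w.ord (bc N f) = v.ord f := by
  have hDQ := isDict_Qbar N
  have hDC := isDict_C N
  rcases hDQ.place_cases v with ⟨τ, e, hell, hτ⟩ | ⟨g, e, w₀, hw₀, hew, hmem, hg⟩
  · -- point place
    refine exists_place_of_rawVal (bc N) v (hDC.isRawVal_valPtK τ) e hell.pos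
      (fun f hf => ?_) (fun g hg => hDC.ellType_dvd_valPtK τ e hell g hg)
    rw [valPtK_bc N τ hf, hτ f hf]
  · -- cusp place
    have he : 0 < e := by
      rcases Nat.eq_zero_or_pos e with h | h
      · exfalso
        rw [h, zero_mul] at hew
        exact NeZero.ne N hew.symm
      · exact h
    refine exists_place_of_rawVal (bc N) v (hDC.isRawVal_valCuspK g) e he
      (fun f hf => ?_) (fun g' hg' => ?_)
    · rw [valCuspK_bc N g hf, hg f hf]
    · have h := hDC.dvd_valCuspK_mul g w₀ hw₀ hmem g' hg'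
      have hN : (N : ℤ) = (e : ℤ) * (w₀ : ℤ) := by exact_mod_cast hew.symm
      rw [hN] at h
      exact Int.dvd_of_mul_dvd_mul_right (by exact_mod_cast hw₀.ne') h

/-- The chosen extension to `F_ℂ` of a place of `F_ℚ̄`. -/
def bcPlace (v : Place KQ (FNK KQ N)) : Place ℂ (FNK ℂ N) := (exists_bcPlace N v).choose

theorem ord_bcPlace (v : Place KQ (FNK KQ N)) (f : FNK KQ N) :
    (bcPlace N v).ord (bc N f) = v.ord f :=
  (exists_bcPlace N v).choose_spec f

theorem bcPlace_injective : Function.Injective (bcPlace N) := by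
  intro v v' h
  refine place_eq_of_ord fun f hf => ?_
  rw [← ord_bcPlace N v', ← h, ord_bcPlace N v]
  exact hf

/-- Base change of divisors `ℚ̄ → ℂ`. -/
def bcDiv : Divisor KQ (FNK KQ N) →+ Divisor ℂ (FNK ℂ N) :=
  Finsupp.mapDomain.addMonoidHom (bcPlace N)

theorem bcDiv_apply (D : Divisor KQ (FNK KQ N)) :
    bcDiv N D = Finsupp.mapDomain (bcPlace N) D := rfl

@[simp]
theorem bcDiv_single (v : Place KQ (FNK KQ N)) (a : ℤ) :
    bcDiv N (Finsupp.single v a) = Finsupp.single (bcPlace N v) a := by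
  rw [bcDiv_apply, Finsupp.mapDomain_single]

@[simp]
theorem bcDiv_apply_bcPlace (D : Divisor KQ (FNK KQ N)) (v : Place KQ (FNK KQ N)) :
    bcDiv N D (bcPlace N v) = D v :=
  Finsupp.mapDomain_apply (bcPlace_injective N) D v

theorem bcDiv_apply_of_notMem_range (D : Divisor KQ (FNK KQ N)) {w : Place ℂ (FNK ℂ N)}
    (hw : w ∉ Set.range (bcPlace N)) : bcDiv N D w = 0 :=
  Finsupp.mapDomain_of_notMem_range D w hw

theorem bcDiv_injective : Function.Injective (bcDiv N) :=
  Finsupp.mapDomain_injective (bcPlace_injective N)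

theorem degree_bcDiv (D : Divisor KQ (FNK KQ N)) :
    Divisor.degree (bcDiv N D) = Divisor.degree D := by
  induction D using Finsupp.induction with
  | zero => simp
  | single_add v a D _ _ ih =>
      rw [map_add, map_add, map_add, ih, bcDiv_single, Divisor.degree_single,
        Divisor.degree_single, FinDimK.deg_eq_one_FNK ℂ N, FinDimK.deg_eq_one_FNK KQ N]

end Fermat.Agent.MW.Div
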