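import Mathlib
import Fermat.Agent.ESJ.Jac.FinDimK

/-!
# MW / DIV: from the function form to divisibility of `Pic⁰`

`pic0_divisible_of_function_form`: if for every degree-zero divisor `D` of a function field with
principal divisors there is `f ≠ 0` with `n ∣ D v - ord_v f` at all places, then `Pic⁰` is
`n`-divisible.  `jzero_divisible_of_function_form` is the instance `J₀(N) = Pic⁰(ℚ̄·F_N)`.
-/

set_option autoImplicit false

namespace Fermat.Agent.MW.Div

open AlgebraicCurve ModularCurve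

/-- A divisor all of whose coefficients are divisible by `n` is `n` times a divisor. -/
theorem exists_nsmul_eq_of_forall_dvd {K F : Type*} [Field K] [Field F] [Algebra K F]
    {n : ℕ} (Δ : Divisor K F) (h : ∀ v : Place K F, (n : ℤ) ∣ Δ v) :
    ∃ E : Divisor K F, n • E = Δ := by
  refine ⟨Finsupp.mapRange (fun a : ℤ => a / (n : ℤ)) (by simp) Δ, ?_⟩
  ext v
  rw [Finsupp.smul_apply, Finsupp.mapRange_apply, nsmul_eq_mul]
  exact Int.mul_ediv_cancel' (h v)

/-- **Function form ⟹ divisibility of `Pic⁰`.** -/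
theorem pic0_divisible_of_function_form {K F : Type*} [Field K] [Field F] [Algebra K F]
    [HasPrincipalDivisors K F] {n : ℕ} (hn : 0 < n)
    (h : ∀ D : Divisor K F, Divisor.degree D = 0 →
      ∃ f : F, f ≠ 0 ∧ ∀ v : Place K F, (n : ℤ) ∣ D v - v.ord f)
    (x : Pic0 K F) : ∃ y : Pic0 K F, n • y = x := by
  obtain ⟨D, rfl⟩ := Pic0.mk_surjective x
  obtain ⟨f, hf0, hf⟩ := h D.1 D.2
  obtain ⟨P, hP, hPdeg⟩ := HasPrincipalDivisors.exists_divisor (K := K) f hf0
  obtain ⟨E, hE⟩ := exists_nsmul_eq_of_forall_dvd (n := n) (D.1 - P) (fun v => by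
    rw [Finsupp.sub_apply, hP v]
    exact hf v)
  have hEdeg : Divisor.degree E = 0 := by
    have h1 : Divisor.degree (n • E) = 0 := by
      rw [hE, map_sub, hPdeg]
      have := D.2
      rw [Divisor.mem_degZero] at this
      rw [this, sub_zero]
    rw [map_nsmul, nsmul_eq_mul] at h1
    rcases mul_eq_zero.mp h1 with h2 | h2
    · exact absurd (by exact_mod_cast h2) hn.ne'
    · exact h2
  refine ⟨Pic0.mk ⟨E, hEdeg⟩, ?_⟩
  have h2 : n • Pic0.mk (⟨E, hEdeg⟩ : Divisor.degZero (K := K) (F := F))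
      = Pic0.mk (n • (⟨E, hEdeg⟩ : Divisor.degZero (K := K) (F := F))) := rfl
  rw [h2]
  refine (QuotientAddGroup.eq).mpr ?_
  rw [AddSubgroup.mem_addSubgroupOf]
  have h3 : ((-(n • (⟨E, hEdeg⟩ : Divisor.degZero (K := K) (F := F))) + D :
      Divisor.degZero (K := K) (F := F)) : Divisor K F) = P := by
    push_cast
    rw [hE]
    abel
  rw [h3]
  exact ⟨f, hf0, hP⟩

/-- **DIV, output form**: the function form over `ℚ̄` gives divisibility of `J₀(N)(ℚ̄)`. -/
theorem jzero_divisible_of_function_form (N : ℕ) [NeZero N] {n : ℕ} (hn : 0 < n)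
    (h : ∀ D : Divisor (AlgebraicClosure ℚ) (modularFunctionFieldBar N), Divisor.degree D = 0 →
      ∃ f : modularFunctionFieldBar N, f ≠ 0 ∧
        ∀ v : Place (AlgebraicClosure ℚ) (modularFunctionFieldBar N), (n : ℤ) ∣ D v - v.ord f)
    (x : JZero N) : ∃ y : JZero N, n • y = x :=
  haveI : HasPrincipalDivisors (AlgebraicClosure ℚ) (modularFunctionFieldBar N) :=
    Fermat.Agent.ESJ.Jac.FinDimK.hasPrincipalDivisors_FNK (AlgebraicClosure ℚ) N
  pic0_divisible_of_function_form hn h x

/-- Conversely: divisibility of a class gives the function form for its divisors. -/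
theorem function_form_of_pic0_divisible {K F : Type*} [Field K] [Field F] [Algebra K F]
    {n : ℕ} (D : Divisor.degZero (K := K) (F := F))
    (h : ∃ y : Pic0 K F, n • y = Pic0.mk D) :
    ∃ f : F, f ≠ 0 ∧ ∀ v : Place K F, (n : ℤ) ∣ (D : Divisor K F) v - v.ord f := by
  obtain ⟨y, hy⟩ := h
  obtain ⟨E, rfl⟩ := Pic0.mk_surjective y
  have h2 : n • Pic0.mk E = Pic0.mk (n • E) := rfl
  rw [h2] at hy
  have h3 := (QuotientAddGroup.eq).mp hy
  rw [AddSubgroup.mem_addSubgroupOf] at h3
  obtain ⟨f, hf0, hf⟩ := h3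
  refine ⟨f, hf0, fun v => ?_⟩
  have h4 := hf v
  have h5 : ((-(n • E) + D : Divisor.degZero (K := K) (F := F)) : Divisor K F) v
      = -((n : ℤ) * (E : Divisor K F) v) + (D : Divisor K F) v := by
    push_cast
    simp
  rw [h5] at h4
  rw [← h4]
  exact ⟨(E : Divisor K F) v, by ring⟩

end Fermat.Agent.MW.Div
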