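import Mathlib
import Fermat.Agent.MW.Div.BCPlace
import Fermat.Agent.MW.Div.OfFunction
import Fermat.Agent.ESJ.Jac.Descent
import Fermat.Agent.ESJ.Jac.HFin

/-!
# MW / DIV: descent `ℂ → ℚ̄` of `n`-divisibility

`function_form_of_complex`: let `D` be a divisor of `F = ℚ̄(j(q^d))`.  If some `G ∈ F_ℂ^×` has
`n ∣ (bcDiv D) w - ord_w G` at all places `w` of `F_ℂ`, then some `f ∈ F^×` has
`n ∣ D v - ord_v f` at all places `v` of `F`.

Proof: the `Aut(ℂ/ℚ)`-orbit of `bcDiv D` is finite (finitely many conjugates of the `j`-values,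
finite `j`-fibres), the solutions `G` for a fixed divisor form a torsor under the Kummer group,
which is finite modulo `n`-th powers (`HFin.exists_finset_classes`); so the translates of `G` lie
in finitely many classes modulo `n`-th powers and `ESJ.Jac.descent_of_ne_zero` applies.

`jzero_divisible_of_complex`: hence divisibility of `J₀(N)(ℚ̄)` from the complex function form.
-/

set_option autoImplicit false

noncomputable section

namespace Fermat.Agent.MW.Div

open AlgebraicCurve ModularCurve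
open Fermat.Agent.S24 Fermat.Agent.ESJ.Jac Fermat.Agent.ESJ.Dict

/-- A nonzero function has finitely many zeros and poles. -/
theorem finite_setOf_ord_ne_zero {K F : Type*} [Field K] [Field F] [Algebra K F]
    [HasPrincipalDivisors K F] {f : F} (hf : f ≠ 0) : {v : Place K F | v.ord f ≠ 0}.Finite := by
  obtain ⟨D, hD, -⟩ := HasPrincipalDivisors.exists_divisor (K := K) f hf
  refine D.support.finite_toSet.subset fun v hv => ?_
  rw [Finset.mem_coe, Finsupp.mem_support_iff, hD v]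
  exact hv

/-- `ℚ̄ / ℚ` is algebraic, for the algebra instance found by instance search. -/
theorem isAlgebraic_rat_KQ : Algebra.IsAlgebraic ℚ KQ := by
  have h : (AlgebraicClosure.instAlgebra ℚ : Algebra ℚ (AlgebraicClosure ℚ)) =
      DivisionRing.toRatAlgebra := Subsingleton.elim _ _
  rw [← h]
  infer_instance

variable (N : ℕ) [NeZero N]

/-- `j - c ≠ 0` for a constant `c`. -/
theorem jBarK_sub_ne_zero (K : Type) [Field K] [Algebra ℚ K] (c : K) :
    jBarK K N - algebraMap K (FNK K N) c ≠ 0 := by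
  intro h
  apply FinDimK.transcendental_jBarK K N
  rw [sub_eq_zero.mp h]
  exact isAlgebraic_algebraMap c

theorem jBarK_ne_zero' (K : Type) [Field K] [Algebra ℚ K] : jBarK K N ≠ 0 := by
  have := jBarK_sub_ne_zero N K 0
  rwa [map_zero, sub_zero] at this

/-- The action of `σ ∈ Aut(ℂ/ℚ)` on `j - c`. -/
theorem arithmeticGalois_smul_jBarK_sub (σ : ℂ ≃ₐ[ℚ] ℂ) (c : ℂ) :
    arithmeticGalois (modularFunctionFieldFull N) σ • (jBarK ℂ N - algebraMap ℂ (FNK ℂ N) c)
      = jBarK ℂ N - algebraMap ℂ (FNK ℂ N) (σ c) := by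
  rw [smul_sub, arithmeticGalois_smul_jBarK N σ, SemilinearAut.smul_algebraMap]
  rfl

set_option maxHeartbeats 1600000 in
/-- The `Aut(ℂ/ℚ)`-orbit of the extension of a place of `F_ℚ̄` is finite. -/
theorem finite_orbit_bcPlace (v : Place KQ (FNK KQ N)) :
    {w' : Place ℂ (FNK ℂ N) | ∃ σ : ℂ ≃ₐ[ℚ] ℂ,
      w' = arithmeticGalois (modularFunctionFieldFull N) σ • bcPlace N v}.Finite := by
  have hPC : HasPrincipalDivisors ℂ (FNK ℂ N) := FinDimK.hasPrincipalDivisors_FNK ℂ N
  by_cases hneg : v.ord (jBarK KQ N) < 0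
  · -- a pole of `j`
    refine (finite_setOf_ord_ne_zero (K := ℂ) (jBarK_ne_zero' N ℂ)).subset ?_
    rintro _ ⟨σ, rfl⟩
    have h1 := SemilinearAut.ord_smul (arithmeticGalois (modularFunctionFieldFull N) σ)
      (bcPlace N v) (jBarK ℂ N)
    rw [arithmeticGalois_smul_jBarK N σ] at h1
    show (arithmeticGalois (modularFunctionFieldFull N) σ • bcPlace N v).ord (jBarK ℂ N) ≠ 0
    rw [h1, ← bc_jBarK N, ord_bcPlace]
    exact hneg.ne
  · -- a finite value `c` of `j`
    push Not at hneg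
    obtain ⟨c, hc⟩ := FinDimK.residueTrivial_FNK KQ N v ⟨jBarK KQ N, mem_of_ord_nonneg v hneg⟩
    set y : FNK KQ N := jBarK KQ N - algebraMap KQ (FNK KQ N) c with hy
    have hy0 : y ≠ 0 := jBarK_sub_ne_zero N KQ c
    have hypos : 0 < v.ord y := by
      rw [ord_pos_iff]
      intro hinv
      have hnu := (IsLocalRing.mem_maximalIdeal _).mp hc
      apply hnu
      refine IsUnit.of_mul_eq_one (⟨y⁻¹, hinv⟩ : v.toValuationSubring) ?_
      apply Subtype.ext
      show (jBarK KQ N - algebraMap KQ (FNK KQ N) c) * y⁻¹ = 1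
      exact mul_inv_cancel₀ hy0
    have hbcy : bc N y = jBarK ℂ N - algebraMap ℂ (FNK ℂ N) (iotaK c) := by
      rw [hy, map_sub, bc_jBarK, bc_algebraMap]
    have hint : IsIntegral ℚ c := (isAlgebraic_rat_KQ.isAlgebraic c).isIntegral
    have hfinR : ((minpoly ℚ c).rootSet ℂ).Finite := Polynomial.rootSet_finite _ _
    refine (Set.Finite.biUnion hfinR (fun c' _ =>
      finite_setOf_ord_ne_zero (K := ℂ) (jBarK_sub_ne_zero N ℂ c'))).subset ?_
    rintro _ ⟨σ, rfl⟩
    have hroot : σ (iotaK c) ∈ (minpoly ℚ c).rootSet ℂ := by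
      rw [Polynomial.mem_rootSet]
      refine ⟨minpoly.ne_zero hint, ?_⟩
      have h2 := Polynomial.aeval_algHom_apply
        ((σ : ℂ →ₐ[ℚ] ℂ).comp (iotaK.toRatAlgHom)) c (minpoly ℚ c)
      rw [minpoly.aeval, map_zero] at h2
      exact h2
    refine Set.mem_biUnion hroot ?_
    have h1 := SemilinearAut.ord_smul (arithmeticGalois (modularFunctionFieldFull N) σ)
      (bcPlace N v) (bc N y)
    have h2 : arithmeticGalois (modularFunctionFieldFull N) σ • bc N y
        = jBarK ℂ N - algebraMap ℂ (FNK ℂ N) (σ (iotaK c)) := by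
      rw [hbcy, arithmeticGalois_smul_jBarK_sub]
    rw [h2, ord_bcPlace] at h1
    show (arithmeticGalois (modularFunctionFieldFull N) σ • bcPlace N v).ord
      (jBarK ℂ N - algebraMap ℂ (FNK ℂ N) (σ (iotaK c))) ≠ 0
    rw [h1]
    exact hypos.ne'

set_option maxHeartbeats 1600000 in
/-- The `Aut(ℂ/ℚ)`-orbit of a base-changed divisor is finite. -/
theorem finite_orbit_bcDiv (D : Divisor KQ (FNK KQ N)) :
    {D' : Divisor ℂ (FNK ℂ N) | ∃ σ : ℂ ≃ₐ[ℚ] ℂ,
      D' = arithmeticGalois (modularFunctionFieldFull N) σ • bcDiv N D}.Finite := by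
  classical
  -- the orbit of each point of the support, as a finite type
  let O : D.support → Type := fun v => {w' : Place ℂ (FNK ℂ N) // ∃ σ : ℂ ≃ₐ[ℚ] ℂ,
    w' = arithmeticGalois (modularFunctionFieldFull N) σ • bcPlace N v.1}
  have hO : ∀ v, Finite (O v) := fun v => (finite_orbit_bcPlace N v.1).to_subtype
  let Ψ : (∀ v, O v) → Divisor ℂ (FNK ℂ N) := fun t =>
    ∑ v ∈ D.support.attach, Finsupp.single (t v).1 (D v.1)
  refine (Set.finite_range Ψ).subset ?_
  rintro _ ⟨σ, rfl⟩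
  refine ⟨fun v => ⟨arithmeticGalois (modularFunctionFieldFull N) σ • bcPlace N v.1, σ, rfl⟩, ?_⟩
  show ∑ v ∈ D.support.attach,
      Finsupp.single (arithmeticGalois (modularFunctionFieldFull N) σ • bcPlace N v.1) (D v.1)
    = arithmeticGalois (modularFunctionFieldFull N) σ • bcDiv N D
  have hD : D = ∑ v ∈ D.support, Finsupp.single v (D v) := by
    conv_lhs => rw [← Finsupp.sum_single D]
    rfl
  have h1 : arithmeticGalois (modularFunctionFieldFull N) σ • bcDiv N D
      = ∑ v ∈ D.support, Finsupp.single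
          (arithmeticGalois (modularFunctionFieldFull N) σ • bcPlace N v) (D v) := by
    conv_lhs => rw [hD]
    rw [map_sum (bcDiv N), Finset.smul_sum]
    refine Finset.sum_congr rfl fun v _ => ?_
    rw [bcDiv_single, SemilinearAut.smul_single]
  rw [h1]
  exact Finset.sum_attach D.support (fun v => Finsupp.single
    (arithmeticGalois (modularFunctionFieldFull N) σ • bcPlace N v) (D v))

omit [NeZero N] in
/-- A solution of the complex function form for `D'` is moved by `σ` to a solution for `σ • D'`. -/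
theorem dvd_smul_of_dvd {n : ℕ} {D' : Divisor ℂ (FNK ℂ N)} {G : FNK ℂ N}
    (hG : ∀ w : Place ℂ (FNK ℂ N), (n : ℤ) ∣ D' w - w.ord G) (σ : ℂ ≃ₐ[ℚ] ℂ)
    (w : Place ℂ (FNK ℂ N)) :
    (n : ℤ) ∣ (arithmeticGalois (modularFunctionFieldFull N) σ • D') w
      - w.ord (arithmeticGalois (modularFunctionFieldFull N) σ • G) := by
  set g := arithmeticGalois (modularFunctionFieldFull N) σ with hg
  have h1 := SemilinearAut.ord_smul g (g⁻¹ • w) G
  rw [smul_inv_smul] at h1
  rw [SemilinearAut.divisor_smul_apply, h1]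
  exact hG _

/-- **Descent of the function form** from `ℂ` to `ℚ̄`. -/
theorem function_form_of_complex {n : ℕ} (hn : 0 < n) (D : Divisor KQ (FNK KQ N))
    (hC : ∃ G : FNK ℂ N, G ≠ 0 ∧ ∀ w : Place ℂ (FNK ℂ N), (n : ℤ) ∣ bcDiv N D w - w.ord G) :
    ∃ f : FNK KQ N, f ≠ 0 ∧ ∀ v : Place KQ (FNK KQ N), (n : ℤ) ∣ D v - v.ord f := by
  classical
  obtain ⟨G, hG0, hG⟩ := hC
  -- notation
  set gal : (ℂ ≃ₐ[ℚ] ℂ) →* SemilinearAut ℂ (FNK ℂ N) :=
    arithmeticGalois (modularFunctionFieldFull N) with hgal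
  have hsmul0 : ∀ σ : ℂ ≃ₐ[ℚ] ℂ, gal σ • G ≠ 0 := fun σ h => hG0 (by
    have h2 : (gal σ)⁻¹ • (gal σ • G) = (gal σ)⁻¹ • (0 : FNK ℂ N) := by rw [h]
    rwa [inv_smul_smul, smul_zero] at h2)
  -- the finite orbit and a choice of representatives
  have hfinO := finite_orbit_bcDiv N D
  let pick : Divisor ℂ (FNK ℂ N) → (ℂ ≃ₐ[ℚ] ℂ) := fun D' =>
    if h : ∃ σ : ℂ ≃ₐ[ℚ] ℂ, D' = gal σ • bcDiv N D then h.choose else 1
  have hpick : ∀ σ : ℂ ≃ₐ[ℚ] ℂ,
      gal (pick (gal σ • bcDiv N D)) • bcDiv N D = gal σ • bcDiv N D := by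
    intro σ
    have h : ∃ τ : ℂ ≃ₐ[ℚ] ℂ, gal σ • bcDiv N D = gal τ • bcDiv N D := ⟨σ, rfl⟩
    have h2 : pick (gal σ • bcDiv N D) = h.choose := dif_pos h
    rw [h2]
    exact h.choose_spec.symm
  -- the Kummer classes
  obtain ⟨SK, hSK⟩ := HFin.exists_finset_classes N (isDict_C N) hn
  -- the finite set of representatives
  let S : Finset (FNK ℂ N) :=
    Finset.image₂ (fun s D' => s * (gal (pick D') • G)) SK hfinO.toFinset
  have hfin : ∀ σ : ℂ ≃ₐ[ℚ] ℂ, ∃ s ∈ S, ∃ c : FNK ℂ N, c ≠ 0 ∧ gal σ • G = c ^ n * s := by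
    intro σ
    set D' := gal σ • bcDiv N D with hD'
    set G' := gal (pick D') • G with hG'
    have hG'0 : G' ≠ 0 := hsmul0 _
    have hu : IsKummerElt ℂ (FNK ℂ N) n (gal σ • G * G'⁻¹) := by
      refine ⟨mul_ne_zero (hsmul0 σ) (inv_ne_zero hG'0), fun w => ?_⟩
      rw [w.ord_mul (hsmul0 σ) (inv_ne_zero hG'0), w.ord_inv]
      have h1 := dvd_smul_of_dvd N hG σ w
      have h2 := dvd_smul_of_dvd N hG (pick D') w
      rw [← hgal, hpick σ] at h2
      rw [← hgal] at h1
      have h3 := dvd_sub h2 h1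
      have h4 : (gal σ • bcDiv N D) w - w.ord (gal (pick D') • G)
          - ((gal σ • bcDiv N D) w - w.ord (gal σ • G))
          = w.ord (gal σ • G) + -w.ord G' := by
        rw [hG']; ring
      rwa [h4] at h3
    obtain ⟨s, hs, c, hc0, hc⟩ := hSK _ hu
    refine ⟨s * G', ?_, c, hc0, ?_⟩
    · refine Finset.mem_image₂.mpr ⟨s, hs, D', ?_, rfl⟩
      rw [Set.Finite.mem_toFinset]
      exact ⟨σ, rfl⟩
    · have h5 : gal σ • G = (gal σ • G * G'⁻¹) * G' := by
        rw [mul_assoc, inv_mul_cancel₀ hG'0, mul_one]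
      rw [h5, hc]
      ring
  -- descent
  obtain ⟨x, hx0, f, hf⟩ := descent_of_ne_zero N hn G hG0 ⟨S, hfin⟩
  have hbc : bc N f = x ^ n * G := Subtype.ext hf.symm
  have hf0 : f ≠ 0 := by
    rintro rfl
    rw [map_zero] at hbc
    exact mul_ne_zero (pow_ne_zero n hx0) hG0 hbc.symm
  refine ⟨f, hf0, fun v => ?_⟩
  have h1 : v.ord f = (n : ℤ) * (bcPlace N v).ord x + (bcPlace N v).ord G := by
    rw [← ord_bcPlace N v f, hbc, (bcPlace N v).ord_mul (pow_ne_zero n hx0) hG0,
      ← zpow_natCast, (bcPlace N v).ord_zpow]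
  have h2 := hG (bcPlace N v)
  rw [bcDiv_apply_bcPlace] at h2
  have h3 : D v - v.ord f
      = (D v - (bcPlace N v).ord G) - (n : ℤ) * (bcPlace N v).ord x := by
    rw [h1]; ring
  rw [h3]
  exact dvd_sub h2 (dvd_mul_right _ _)

/-- **DIV from the complex function form**: if every base-changed degree-zero divisor is
`n`-divisible over `ℂ` up to a principal divisor, then `J₀(N)(ℚ̄)` is `n`-divisible. -/
theorem jzero_divisible_of_complex {n : ℕ} (hn : 0 < n)
    (hC : ∀ D : Divisor KQ (FNK KQ N), Divisor.degree D = 0 →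
      ∃ G : FNK ℂ N, G ≠ 0 ∧ ∀ w : Place ℂ (FNK ℂ N), (n : ℤ) ∣ bcDiv N D w - w.ord G)
    (x : JZero N) : ∃ y : JZero N, n • y = x :=
  jzero_divisible_of_function_form N hn
    (fun D hD => function_form_of_complex N hn D (hC D hD)) x

/-- **DIV from divisibility of base-changed classes in `Pic⁰(F_ℂ)`.** -/
theorem jzero_divisible_of_pic0_complex {n : ℕ} (hn : 0 < n)
    (hC : ∀ (D : Divisor KQ (FNK KQ N)) (hD : Divisor.degree D = 0),
      ∃ z : Pic0 ℂ (FNK ℂ N), n • z = Pic0.mk ⟨bcDiv N D, by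
        rw [Divisor.mem_degZero, degree_bcDiv, hD]⟩)
    (x : JZero N) : ∃ y : JZero N, n • y = x :=
  jzero_divisible_of_complex N hn
    (fun D hD => function_form_of_pic0_divisible
      (⟨bcDiv N D, by rw [Divisor.mem_degZero, degree_bcDiv, hD]⟩ :
        Divisor.degZero (K := ℂ) (F := FNK ℂ N)) (hC D hD)) x

end Fermat.Agent.MW.Div
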