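import Mathlib
import Fermat.Agent.MW.Div.Descent
import Fermat.Agent.MW.DivC.Defs

/-!
# MW / DIV: base-changed places have algebraic `j`-value — glue to DIV-C

* `bcPlace_pole_or_val`: the extension `bcPlace N v` of a place of `F_ℚ̄` is a pole of `j` or `j`
  takes an algebraic value there (`DivC.Val`, value in `DivC.Qbar`).
* `bcDiv_smul_eq`: hence, if `Γ_ℚ̄ = Aut(ℂ/ℚ̄)` fixes every place of `F_ℂ` which is a pole of `j`
  or at which `j` has a value in `ℚ̄` (DIV-C `Sep.smul_eq_of_val`, `Sep.smul_eq_of_pole`), it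
  fixes every base-changed divisor.
* `jzero_divisible_of_fixed`: the DIV-C main statement (`Γ_ℚ̄`-invariant degree-zero divisors of
  `F_ℂ` are `n`-divisible up to principal divisors) gives divisibility of `J₀(N)(ℚ̄)`.
-/

set_option autoImplicit false

noncomputable section

namespace Fermat.Agent.MW.Div

open AlgebraicCurve ModularCurve
open Fermat.Agent.S24 Fermat.Agent.ESJ.Jac Fermat.Agent.ESJ.Dict Fermat.Agent.MW.DivC

variable (N : ℕ) [NeZero N]

/-- The image of `ℚ̄` in `ℂ` is algebraic over `ℚ`. -/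
theorem iotaK_mem_Qbar (c : KQ) : iotaK c ∈ Qbar := by
  rw [Qbar, mem_algebraicClosure_iff]
  have hint : IsIntegral ℚ c := (isAlgebraic_rat_KQ.isAlgebraic c).isIntegral
  have h2 : IsIntegral ℚ (iotaK.toRatAlgHom c) := hint.map iotaK.toRatAlgHom
  exact h2.isAlgebraic

/-- A place of `F_ℚ̄` is a pole of `j`, or `j` has a value in `ℚ̄` there. -/
theorem pole_or_val_KQ (v : Place KQ (FNK KQ N)) :
    v.ord (jBarK KQ N) < 0 ∨
      ∃ c : KQ, 0 < v.ord (jBarK KQ N - algebraMap KQ (FNK KQ N) c) := by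
  by_cases hneg : v.ord (jBarK KQ N) < 0
  · exact Or.inl hneg
  · right
    push Not at hneg
    obtain ⟨c, hc⟩ := FinDimK.residueTrivial_FNK KQ N v ⟨jBarK KQ N, mem_of_ord_nonneg v hneg⟩
    refine ⟨c, ?_⟩
    have hy0 : jBarK KQ N - algebraMap KQ (FNK KQ N) c ≠ 0 := jBarK_sub_ne_zero N KQ c
    rw [ord_pos_iff]
    intro hinv
    have hnu := (IsLocalRing.mem_maximalIdeal _).mp hc
    apply hnu
    refine IsUnit.of_mul_eq_one
      (⟨(jBarK KQ N - algebraMap KQ (FNK KQ N) c)⁻¹, hinv⟩ : v.toValuationSubring) ?_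
    apply Subtype.ext
    show (jBarK KQ N - algebraMap KQ (FNK KQ N) c) *
      (jBarK KQ N - algebraMap KQ (FNK KQ N) c)⁻¹ = 1
    exact mul_inv_cancel₀ hy0

omit [NeZero N] in
/-- `Val` in terms of `ord`. -/
theorem val_iff_ord_pos {P : Place ℂ (FNK ℂ N)} {f : FNK ℂ N} {c : ℂ}
    (h : f - algebraMap ℂ (FNK ℂ N) c ≠ 0) :
    Val P f c ↔ 0 < P.ord (f - algebraMap ℂ (FNK ℂ N) c) := by
  unfold Val Place.ord
  have h0 : P.adicValuation (f - algebraMap ℂ (FNK ℂ N) c) ≠ 0 := P.adicValuation_ne_zero h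
  rw [← WithZero.log_lt_log h0 one_ne_zero, WithZero.log_one]
  omega

/-- **The extension of a place of `F_ℚ̄` is a pole of `j` or has an algebraic `j`-value.** -/
theorem bcPlace_pole_or_val (v : Place KQ (FNK KQ N)) :
    (bcPlace N v).ord (jBarK ℂ N) < 0 ∨
      ∃ t : ℂ, t ∈ Qbar ∧ Val (bcPlace N v) (jBarK ℂ N) t := by
  rcases pole_or_val_KQ N v with h | ⟨c, hc⟩
  · left
    rw [← bc_jBarK N, ord_bcPlace]
    exact h
  · right
    refine ⟨iotaK c, iotaK_mem_Qbar c, ?_⟩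
    rw [val_iff_ord_pos N (jBarK_sub_ne_zero N ℂ (iotaK c))]
    have h1 : bc N (jBarK KQ N - algebraMap KQ (FNK KQ N) c)
        = jBarK ℂ N - algebraMap ℂ (FNK ℂ N) (iotaK c) := by
      rw [map_sub, bc_jBarK, bc_algebraMap]
    rw [← h1, ord_bcPlace]
    exact hc

/-- If `Γ_ℚ̄` fixes the poles of `j` and the places with algebraic `j`-value (DIV-C `Sep`), it
fixes every base-changed divisor. -/
theorem bcDiv_smul_eq
    (hval : ∀ {P : Place ℂ (FNK ℂ N)} {t : ℂ}, t ∈ Qbar → Val P (jBarK ℂ N) t →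
      ∀ {σ : ℂ ≃ₐ[ℚ] ℂ}, σ ∈ Qbar.fixingSubgroup → rho N σ • P = P)
    (hpole : ∀ {P : Place ℂ (FNK ℂ N)}, P.ord (jBarK ℂ N) < 0 →
      ∀ {σ : ℂ ≃ₐ[ℚ] ℂ}, σ ∈ Qbar.fixingSubgroup → rho N σ • P = P)
    (D : Divisor KQ (FNK KQ N)) {σ : ℂ ≃ₐ[ℚ] ℂ} (hσ : σ ∈ Qbar.fixingSubgroup) :
    rho N σ • bcDiv N D = bcDiv N D := by
  induction D using Finsupp.induction with
  | zero => simp
  | single_add v a D _ _ ih =>
      rw [map_add, smul_add, ih, bcDiv_single, SemilinearAut.smul_single]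
      congr 2
      rcases bcPlace_pole_or_val N v with h | ⟨t, ht, h⟩
      · exact hpole h hσ
      · exact hval ht h hσ

/-- **DIV-C ⟹ DIV.**  The DIV-C main statement (`DivC.Main.exists_fun_of_fixed`) together with
the two `Sep` statements gives the divisibility of `J₀(N)(ℚ̄)`. -/
theorem jzero_divisible_of_fixed {n : ℕ} (hn : 0 < n)
    (hval : ∀ {P : Place ℂ (FNK ℂ N)} {t : ℂ}, t ∈ Qbar → Val P (jBarK ℂ N) t →
      ∀ {σ : ℂ ≃ₐ[ℚ] ℂ}, σ ∈ Qbar.fixingSubgroup → rho N σ • P = P)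
    (hpole : ∀ {P : Place ℂ (FNK ℂ N)}, P.ord (jBarK ℂ N) < 0 →
      ∀ {σ : ℂ ≃ₐ[ℚ] ℂ}, σ ∈ Qbar.fixingSubgroup → rho N σ • P = P)
    (hmain : ∀ D : Divisor ℂ (FNK ℂ N), Divisor.degree D = 0 →
      (∀ σ ∈ Qbar.fixingSubgroup, rho N σ • D = D) →
      ∃ G : FNK ℂ N, G ≠ 0 ∧ ∀ w : Place ℂ (FNK ℂ N), (n : ℤ) ∣ D w - w.ord G)
    (x : JZero N) : ∃ y : JZero N, n • y = x :=
  jzero_divisible_of_complex N hn (fun D hD =>
    hmain (bcDiv N D) (by rw [degree_bcDiv, hD])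
      (fun _ hσ => bcDiv_smul_eq N hval hpole D hσ)) x

end Fermat.Agent.MW.Div
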