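/-
helper86 — MW / DIV, fact (B): the `n`-torsion of `Pic⁰(ℂ·F_N)` is finite.

The Kummer map over `ℂ`: `Pic⁰(F_ℂ)[n] → {parabolic-elliptic characters of exponent n of Γ₀(N)}`
is an injective homomorphism (`exists_kummerHom_C`), by the abstract
`KummerAlg.exists_addMonoidHom_of_kummer` at `(K, F) = (ℂ, FNK ℂ N)` and the `ι`-generic
Kummer-character lemmas of `ESJ/Jac` with the dictionary over `ℂ`. Hypothesis-free.
-/
import Mathlib
import Fermat.Agent.ESJ.Jac.SystemMer
import Fermat.Agent.ESJ.Jac.HFin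

set_option autoImplicit false
set_option linter.style.haveILetI false
set_option linter.deprecated false

open CongruenceSubgroup ModularCurve AlgebraicCurve
open scoped MatrixGroups

noncomputable section

namespace Fermat.Agent.MW.Div.TorsFinC

open Fermat.Agent.S24 Fermat.Agent.ESJ.ParHom Fermat.Agent.ESJ.Dict Fermat.Agent.ESJ.Jac

variable (N : ℕ) [NeZero N]

/-- The injective Kummer homomorphism over `ℂ`. -/
theorem exists_kummerHom_C {n : ℕ} (hn : 0 < n) :
    ∃ κ : Pic0.torsion ℂ (FNK ℂ N) n →+ Additive (peCharSub (Gamma0 N) n),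
      Function.Injective κ ∧
      ∀ (x : Pic0.torsion ℂ (FNK ℂ N) n) (D : Divisor.degZero (K := ℂ) (F := FNK ℂ N))
        (f : FNK ℂ N) (χ : peCharSub (Gamma0 N) n),
        Pic0.mk D = (x : Pic0 ℂ (FNK ℂ N)) → f ≠ 0 →
        (∀ v : Place ℂ (FNK ℂ N), (n : ℤ) * (D : Divisor ℂ (FNK ℂ N)) v = v.ord f) →
        IsKummerChar (RingHom.id ℂ) N n f (χ : Gamma0 N →* ℂˣ) →
        κ x = Additive.ofMul χ := by
  have hD := isDict_C N
  exact KummerAlg.exists_addMonoidHom_of_kummer (K := ℂ) (F := FNK ℂ N) hn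
    (C := peCharSub (Gamma0 N) n)
    (fun f c => IsKummerChar (RingHom.id ℂ) N n f (c : Gamma0 N →* ℂˣ))
    (fun f hf => by
      obtain ⟨χ, hχ⟩ := exists_isKummerChar hD hn hf
      exact ⟨⟨χ, IsKummerChar.isPEChar hD hn hf hχ⟩, hχ⟩)
    (fun f c c' hf hc hc' => Subtype.ext (IsKummerChar.unique hD hn hf.1 hc hc'))
    (fun f f' c c' _ _ hc hc' => IsKummerChar.mul hD hn hc hc')
    (fun f hf h1 => by
      obtain ⟨g, rfl⟩ := exists_pow_eq_of_isKummerChar_one_complex_of_isDict hD hn h1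
      have hg : g ≠ 0 := by
        rintro rfl
        exact hf.1 (zero_pow hn.ne')
      exact ⟨g, hg, fun v => ord_pow v g n⟩)
    (fun f g hf hg hfg => isKummerChar_one_of_ord_eq hD hn hf hg hfg)

/-- The parabolic-elliptic characters of exponent `n` of `Γ₀(N)` are finite in number. -/
instance finite_peCharSub {n : ℕ} [NeZero n] : Finite (peCharSub (Gamma0 N) n) := by
  have h := HFin.finite_torsionChars (HFin.fg_Gamma0 N) (Nat.pos_of_ne_zero (NeZero.ne n))
  have : Finite {χ : Gamma0 N →* ℂˣ | ∀ γ : Gamma0 N, χ γ ^ n = 1} := h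
  exact Finite.of_injective
    (fun χ : peCharSub (Gamma0 N) n =>
      (⟨χ.1, χ.2.1⟩ : {χ : Gamma0 N →* ℂˣ | ∀ γ : Gamma0 N, χ γ ^ n = 1}))
    (fun χ χ' h => Subtype.ext (by simpa using congrArg Subtype.val h))

/-- **(B)**: the `n`-torsion of `Pic⁰(ℂ·F_N)` is finite. -/
instance finite_torsion_C' {n : ℕ} [NeZero n] : Finite (Pic0.torsion ℂ (FNK ℂ N) n) := by
  obtain ⟨κ, hκ, -⟩ := exists_kummerHom_C N (Nat.pos_of_ne_zero (NeZero.ne n))
  have : Finite (Additive (peCharSub (Gamma0 N) n)) :=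
    inferInstanceAs (Finite (peCharSub (Gamma0 N) n))
  exact Finite.of_injective κ hκ

/-- **(B)**: the `n`-torsion of `Pic⁰(ℂ·F_N)` is finite (set form). -/
theorem finite_torsion_C {n : ℕ} (hn : 0 < n) :
    (Pic0.torsion ℂ (FNK ℂ N) n : Set (Pic0 ℂ (FNK ℂ N))).Finite := by
  haveI : NeZero n := ⟨hn.ne'⟩
  exact (Set.finite_coe_iff (s := (Pic0.torsion ℂ (FNK ℂ N) n : Set (Pic0 ℂ (FNK ℂ N))))).mp
    (inferInstanceAs (Finite (Pic0.torsion ℂ (FNK ℂ N) n)))

/-- **(B)**, elementwise form: finitely many classes are killed by `n`. -/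
theorem finite_setOf_nsmul_eq_zero {n : ℕ} (hn : 0 < n) :
    {x : Pic0 ℂ (FNK ℂ N) | n • x = 0}.Finite := by
  refine (finite_torsion_C N hn).subset ?_
  intro x hx
  rw [SetLike.mem_coe, Pic0.mem_torsion]
  rw [Set.mem_setOf_eq] at hx
  rw [natCast_zsmul]
  exact hx

/-- **(B)**, fibre form: for every `c`, finitely many `z` with `n • z = c`. -/
theorem finite_setOf_nsmul_eq {n : ℕ} (hn : 0 < n) (c : Pic0 ℂ (FNK ℂ N)) :
    {z : Pic0 ℂ (FNK ℂ N) | n • z = c}.Finite := by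
  by_cases h : ∃ z₀ : Pic0 ℂ (FNK ℂ N), n • z₀ = c
  · obtain ⟨z₀, hz₀⟩ := h
    refine ((finite_setOf_nsmul_eq_zero N hn).image (fun x => x + z₀)).subset ?_
    intro z hz
    refine ⟨z - z₀, ?_, by simp⟩
    rw [Set.mem_setOf_eq] at hz ⊢
    rw [nsmul_sub, hz, hz₀, sub_self]
  · convert Set.finite_empty
    ext z
    simp only [Set.mem_setOf_eq, Set.mem_empty_iff_false, iff_false]
    exact fun hz => h ⟨z, hz⟩

end Fermat.Agent.MW.Div.TorsFinC
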